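import Mathlib
import Fermat.Agent.LT.H556.A0
import Fermat.Agent.LT.T1.Spec
import Fermat.Agent.LT.T2.Spec
import Fermat.Agent.LT.T2.H429.OpsSpec

/-!
# Row LT, tower T2, sub-leaf T2.07.09 (`SubConvBdd429`), helper173

OFF-MAIN.  `subConvBdd_of173 : SubTransl429 K → SubConvBdd429 K`:
`‖R(f) φ‖² ≤ ‖f‖₁² ‖φ‖²` on the cusp functions (weighted Cauchy--Schwarz, Fubini, and the
invariance of the Petersson integral under right translations = the KEY LEMMA `SubTransl429`).
-/

set_option autoImplicit false

open IsDedekindDomain NumberField MeasureTheory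
open Fermat.Agent.LT.H556.A0
open Fermat.Agent.LT.T2
open Fermat.Agent.LT.T2.H429

noncomputable section

namespace Fermat.Agent.LT.T2.H173

variable {K : Type} [Field K] [NumberField K]

attribute [local instance] Fermat.Agent.LT.T2.borelG

/-! ## 1. Weighted Cauchy--Schwarz -/

/-- `(∫ u w)² ≤ (∫ w) (∫ u² w)` for a weight `w ≥ 0`. -/
theorem sq_integral_mul_le173 {α : Type*} [MeasurableSpace α] (μ : Measure α) (u w : α → ℝ)
    (hw : ∀ a, 0 ≤ w a) (h0 : Integrable w μ) (h1 : Integrable (fun a => u a * w a) μ)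
    (h2 : Integrable (fun a => u a ^ 2 * w a) μ) :
    (∫ a, u a * w a ∂μ) ^ 2 ≤ (∫ a, w a ∂μ) * ∫ a, u a ^ 2 * w a ∂μ := by
  have key : ∀ t : ℝ, 0 ≤ (∫ a, w a ∂μ) * (t * t) + (-2 * ∫ a, u a * w a ∂μ) * t
      + ∫ a, u a ^ 2 * w a ∂μ := by
    intro t
    have e : (fun a => (u a - t) ^ 2 * w a)
        = fun a => (t * t) * w a + ((-2 * t) * (u a * w a) + u a ^ 2 * w a) := by
      funext a; ring
    have h3 : ∫ a, (u a - t) ^ 2 * w a ∂μ
        = (∫ a, w a ∂μ) * (t * t) + (-2 * ∫ a, u a * w a ∂μ) * t + ∫ a, u a ^ 2 * w a ∂μ := by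
      rw [e]
      have i1 : Integrable (fun a => (t * t) * w a) μ := h0.const_mul _
      have i2 : Integrable (fun a => (-2 * t) * (u a * w a)) μ := h1.const_mul _
      have i3 : Integrable (fun a => (-2 * t) * (u a * w a) + u a ^ 2 * w a) μ := i2.add h2
      rw [integral_add i1 i3, integral_add i2 h2, integral_const_mul, integral_const_mul]
      ring
    rw [← h3]
    exact integral_nonneg fun a => mul_nonneg (sq_nonneg _) (hw a)
  have h := discrim_le_zero key
  unfold discrim at h
  nlinarith

/-! ## 2. The square of the norm as a real integral -/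

theorem nsq_eq173 (F : Frame K) (φ : G K → ℂ) :
    nsq F φ = ∫ g in F.D, Complex.normSq (φ g) ∂F.μ := by
  unfold nsq pair
  have e : (fun g => φ g * (starRingEnd ℂ) (φ g))
      = fun g => ((Complex.normSq (φ g) : ℝ) : ℂ) := by
    funext g; rw [Complex.mul_conj]
  rw [e, integral_complex_ofReal, Complex.ofReal_re]

/-! ## 3. The bound, given the invariance of cusp functions under `Z⁺` -/

theorem convBdd_core173 (hT : SubTransl429 K) (𝔫 : Ideal (𝓞 K)) (c : Ctx429 K 𝔫) (F : Frame K)
    (f : G K → ℂ) (hf : IsSphTestFn 𝔫 f)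
    (hZ : ∀ φ : G K → ℂ, IsCuspFn 𝔫 φ → ∀ z : G K, IsDiagPosScalar z →
      ∀ g : G K, φ (g * z) = φ g) :
    Bdd429 𝔫 F (conv F f) := by
  obtain ⟨-, hlc, ht2, hsc⟩ := c.t1.locComp
  have := hlc
  have := ht2
  have := hsc
  have : BorelSpace (G K) := ⟨rfl⟩
  have := F.haar
  have : IsFiniteMeasure (F.μ.restrict F.D) := ⟨by
    rw [Measure.restrict_apply MeasurableSet.univ, Set.univ_inter]; exact F.fin⟩
  have hfc : Continuous f := hf.test.cont
  have hfs : HasCompactSupport f := hf.test.cpt
  -- the weight `w = |f|`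
  set w : G K → ℝ := fun h => ‖f h‖ with hw
  have hwc : Continuous w := hfc.norm
  have hws : HasCompactSupport w := hfs.norm
  have hw0 : ∀ h, 0 ≤ w h := fun h => norm_nonneg _
  have hwi : Integrable w F.μ := hwc.integrable_of_hasCompactSupport hws
  set L : ℝ := ∫ h, w h ∂F.μ with hL
  have hL0 : 0 ≤ L := integral_nonneg hw0
  refine ⟨L ^ 2, fun φ hφ => ?_⟩
  obtain ⟨B, hB⟩ := hφ.bdd
  have hψ : IsCuspFn 𝔫 (conv F f φ) := (c.cc F).2.2.1 f φ hf.test hφ
  obtain ⟨B', hB'⟩ := hψ.bdd
  rw [nsq_eq173, nsq_eq173]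
  set N : G K → ℝ := fun g => Complex.normSq (φ g) with hN
  have hNc : Continuous N := Complex.continuous_normSq.comp hφ.cont
  have hN0 : ∀ g, 0 ≤ N g := fun g => Complex.normSq_nonneg _
  have hNB : ∀ g, N g ≤ B ^ 2 := by
    intro g
    show Complex.normSq (φ g) ≤ B ^ 2
    rw [Complex.normSq_eq_norm_sq]
    exact pow_le_pow_left₀ (norm_nonneg _) (hB g) 2
  -- the function on the product
  set Fn : G K × G K → ℝ := fun p => N (p.1 * p.2) * w p.2 with hFn
  have hFnc : Continuous Fn :=
    (hNc.comp (continuous_fst.mul continuous_snd)).mul (hwc.comp continuous_snd)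
  have hFni : Integrable Fn ((F.μ.restrict F.D).prod F.μ) := by
    have hb : Integrable (fun p : G K × G K => (fun _ : G K => B ^ 2) p.1 * w p.2)
        ((F.μ.restrict F.D).prod F.μ) :=
      Integrable.mul_prod (integrable_const _) hwi
    refine hb.mono' hFnc.aestronglyMeasurable (Filter.Eventually.of_forall fun p => ?_)
    show ‖N (p.1 * p.2) * w p.2‖ ≤ B ^ 2 * w p.2
    rw [Real.norm_eq_abs, abs_of_nonneg (mul_nonneg (hN0 _) (hw0 _))]
    exact mul_le_mul_of_nonneg_right (hNB _) (hw0 _)
  -- the KEY LEMMA for `N`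
  have hkey : ∀ h : G K, ∫ x in F.D, N (x * h) ∂F.μ = ∫ x in F.D, N x ∂F.μ := by
    intro h
    have h1 := hT c.t1 F (fun g => ((N g : ℝ) : ℂ)) (Complex.continuous_ofReal.comp hNc)
      ⟨B ^ 2, fun g => by
        rw [Complex.norm_real, Real.norm_eq_abs, abs_of_nonneg (hN0 g)]; exact hNB g⟩
      (fun γ g => by
        show ((Complex.normSq (φ (T1.ratG K γ * g)) : ℝ) : ℂ) = ((Complex.normSq (φ g) : ℝ) : ℂ)
        rw [show φ (T1.ratG K γ * g) = φ g from hφ.left_inv γ g])
      (fun z hz g => by
        show ((Complex.normSq (φ (g * z)) : ℝ) : ℂ) = ((Complex.normSq (φ g) : ℝ) : ℂ)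
        rw [hZ φ hφ z hz g]) h
    have h2 : ∫ g in F.D, ((N (g * h) : ℝ) : ℂ) ∂F.μ = ∫ g in F.D, ((N g : ℝ) : ℂ) ∂F.μ := h1
    rw [integral_complex_ofReal, integral_complex_ofReal] at h2
    exact Complex.ofReal_injective h2
  -- pointwise Cauchy--Schwarz
  have hpt : ∀ x : G K, Complex.normSq (conv F f φ x) ≤ L * ∫ h, Fn (x, h) ∂F.μ := by
    intro x
    set u : G K → ℝ := fun h => ‖φ (x * h)‖ with hu
    have huc : Continuous u := (hφ.cont.comp (continuous_const.mul continuous_id)).norm
    have i1 : Integrable (fun a => u a * w a) F.μ :=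
      (huc.mul hwc).integrable_of_hasCompactSupport hws.mul_left
    have i2 : Integrable (fun a => u a ^ 2 * w a) F.μ :=
      ((huc.pow 2).mul hwc).integrable_of_hasCompactSupport hws.mul_left
    have hcs := sq_integral_mul_le173 F.μ u w hw0 hwi i1 i2
    have e2 : (fun a => u a ^ 2 * w a) = fun h => Fn (x, h) := by
      funext a
      show ‖φ (x * a)‖ ^ 2 * w a = Complex.normSq (φ (x * a)) * w a
      rw [Complex.normSq_eq_norm_sq]
    rw [e2] at hcs
    have h3 : ‖conv F f φ x‖ ≤ ∫ a, u a * w a ∂F.μ := by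
      unfold conv
      refine (norm_integral_le_integral_norm _).trans (le_of_eq ?_)
      refine integral_congr_ae (Filter.Eventually.of_forall fun a => ?_)
      show ‖φ (x * a) * f a‖ = ‖φ (x * a)‖ * ‖f a‖
      exact norm_mul _ _
    rw [Complex.normSq_eq_norm_sq]
    calc ‖conv F f φ x‖ ^ 2 ≤ (∫ a, u a * w a ∂F.μ) ^ 2 :=
          pow_le_pow_left₀ (norm_nonneg _) h3 2
      _ ≤ L * ∫ h, Fn (x, h) ∂F.μ := hcs
  -- integrate over the domain
  have hJi : Integrable (fun x => ∫ h, Fn (x, h) ∂F.μ) (F.μ.restrict F.D) :=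
    hFni.integral_prod_left
  have hψi : Integrable (fun x => Complex.normSq (conv F f φ x)) (F.μ.restrict F.D) := by
    refine Integrable.mono' (integrable_const (B' ^ 2))
      (Complex.continuous_normSq.comp hψ.cont).aestronglyMeasurable
      (Filter.Eventually.of_forall fun x => ?_)
    rw [Real.norm_eq_abs, abs_of_nonneg (Complex.normSq_nonneg _), Complex.normSq_eq_norm_sq]
    exact pow_le_pow_left₀ (norm_nonneg _) (hB' x) 2
  have hswap : ∫ x in F.D, (∫ h, Fn (x, h) ∂F.μ) ∂F.μ = (∫ x in F.D, N x ∂F.μ) * L := by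
    have h1 := integral_integral_swap (μ := F.μ.restrict F.D) (ν := F.μ)
      (f := fun x h => Fn (x, h)) hFni
    rw [h1]
    have h2 : (fun h => ∫ x in F.D, Fn (x, h) ∂F.μ)
        = fun h => (∫ x in F.D, N x ∂F.μ) * w h := by
      funext h
      show ∫ x in F.D, N (x * h) * w h ∂F.μ = _
      rw [integral_mul_const, hkey h]
    rw [h2, integral_const_mul]
  calc ∫ g in F.D, Complex.normSq (conv F f φ g) ∂F.μ
      ≤ ∫ x in F.D, L * ∫ h, Fn (x, h) ∂F.μ ∂F.μ :=
        integral_mono hψi (hJi.const_mul L) hpt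
    _ = L * ((∫ x in F.D, N x ∂F.μ) * L) := by rw [integral_const_mul, hswap]
    _ = L ^ 2 * ∫ g in F.D, Complex.normSq (φ g) ∂F.μ := by ring

/-! ## 4. Cusp functions are invariant under `Z⁺`

A diagonal positive scalar is the product over the infinite places `w` of positive scalars
supported at `w`. -/

theorem adele_ext173 {x y : Adl K} (h1 : ∀ w : InfinitePlace K, x.1 w = y.1 w)
    (h2 : ∀ v : HeightOneSpectrum (𝓞 K), x.2 v = y.2 v) : x = y :=
  Prod.ext (funext h1) (RestrictedProduct.ext _ _ h2)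

open Classical in
/-- The adele with component `x w` at the infinite places `w ∈ S` and `1` at all other places. -/
def partA173 (x : ∀ w : InfinitePlace K, w.Completion) (S : Finset (InfinitePlace K)) : Adl K :=
  (fun w => if w ∈ S then x w else 1, 1)

theorem partA173_fst_mem (x : ∀ w : InfinitePlace K, w.Completion)
    {S : Finset (InfinitePlace K)} {w : InfinitePlace K} (hw : w ∈ S) :
    (partA173 x S).1 w = x w := by
  classical
  exact if_pos hw

theorem partA173_fst_not_mem (x : ∀ w : InfinitePlace K, w.Completion)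
    {S : Finset (InfinitePlace K)} {w : InfinitePlace K} (hw : w ∉ S) :
    (partA173 x S).1 w = 1 := by
  classical
  exact if_neg hw

theorem partA173_snd (x : ∀ w : InfinitePlace K, w.Completion) (S : Finset (InfinitePlace K))
    (v : HeightOneSpectrum (𝓞 K)) : (partA173 x S).2 v = 1 := rfl

theorem partA173_mul_inv (x : ∀ w : InfinitePlace K, w.Completion) (hx : ∀ w, x w ≠ 0)
    (S : Finset (InfinitePlace K)) : partA173 x S * partA173 (fun w => (x w)⁻¹) S = 1 := by
  refine adele_ext173 (fun w => ?_) (fun v => ?_)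
  · show (partA173 x S).1 w * (partA173 (fun w => (x w)⁻¹) S).1 w = 1
    by_cases hw : w ∈ S
    · rw [partA173_fst_mem x hw, partA173_fst_mem _ hw, mul_inv_cancel₀ (hx w)]
    · rw [partA173_fst_not_mem x hw, partA173_fst_not_mem _ hw, mul_one]
  · show (partA173 x S).2 v * (partA173 (fun w => (x w)⁻¹) S).2 v = 1
    rw [partA173_snd, partA173_snd, mul_one]

theorem partA173_empty (x : ∀ w : InfinitePlace K, w.Completion) : partA173 x ∅ = 1 := by
  refine adele_ext173 (fun w => ?_) (fun v => rfl)
  rw [partA173_fst_not_mem x (Finset.notMem_empty w)]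
  rfl

theorem partA173_insert [DecidableEq (InfinitePlace K)]
    (x : ∀ w : InfinitePlace K, w.Completion) {a : InfinitePlace K}
    {S : Finset (InfinitePlace K)} (ha : a ∉ S) :
    partA173 x (insert a S) = partA173 x S * partA173 x {a} := by
  refine adele_ext173 (fun w => ?_) (fun v => ?_)
  · show (partA173 x (insert a S)).1 w = (partA173 x S).1 w * (partA173 x {a}).1 w
    by_cases hwa : w = a
    · subst hwa
      rw [partA173_fst_mem x (Finset.mem_insert_self _ _), partA173_fst_not_mem x ha,
        partA173_fst_mem x (Finset.mem_singleton_self _), one_mul]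
    · have hws : w ∉ ({a} : Finset (InfinitePlace K)) := fun h => hwa (Finset.mem_singleton.1 h)
      by_cases hw : w ∈ S
      · rw [partA173_fst_mem x (Finset.mem_insert_of_mem hw), partA173_fst_mem x hw,
          partA173_fst_not_mem x hws, mul_one]
      · rw [partA173_fst_not_mem x (fun h => (Finset.mem_insert.1 h).elim hwa hw),
          partA173_fst_not_mem x hw, partA173_fst_not_mem x hws, mul_one]
  · show (partA173 x (insert a S)).2 v = (partA173 x S).2 v * (partA173 x {a}).2 v
    rw [partA173_snd, partA173_snd, partA173_snd, mul_one]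

/-- The scalar matrix of `partA173 x S` as an element of `GL₂(𝔸_K)`. -/
def partG173 (x : ∀ w : InfinitePlace K, w.Completion) (hx : ∀ w, x w ≠ 0)
    (S : Finset (InfinitePlace K)) : G K where
  val := Matrix.scalar (Fin 2) (partA173 x S)
  inv := Matrix.scalar (Fin 2) (partA173 (fun w => (x w)⁻¹) S)
  val_inv := by rw [← map_mul, partA173_mul_inv x hx, map_one]
  inv_val := by rw [← map_mul, mul_comm, partA173_mul_inv x hx, map_one]

theorem partG173_empty (x : ∀ w : InfinitePlace K, w.Completion) (hx : ∀ w, x w ≠ 0) :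
    partG173 x hx ∅ = 1 := by
  apply Units.ext
  show Matrix.scalar (Fin 2) (partA173 x ∅) = 1
  rw [partA173_empty, map_one]

theorem partG173_insert [DecidableEq (InfinitePlace K)]
    (x : ∀ w : InfinitePlace K, w.Completion) (hx : ∀ w, x w ≠ 0)
    {a : InfinitePlace K} {S : Finset (InfinitePlace K)} (ha : a ∉ S) :
    partG173 x hx (insert a S) = partG173 x hx S * partG173 x hx {a} := by
  apply Units.ext
  show Matrix.scalar (Fin 2) (partA173 x (insert a S))
    = Matrix.scalar (Fin 2) (partA173 x S) * Matrix.scalar (Fin 2) (partA173 x {a})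
  rw [partA173_insert x ha, map_mul]

theorem partG173_entry (x : ∀ w : InfinitePlace K, w.Completion) (hx : ∀ w, x w ≠ 0)
    (S : Finset (InfinitePlace K)) (i j : Fin 2) :
    ((partG173 x hx S : G K) : Matrix (Fin 2) (Fin 2) (Adl K)) i j
      = if i = j then partA173 x S else 0 := by
  show (Matrix.scalar (Fin 2) (partA173 x S)) i j = _
  rw [Matrix.scalar_apply, Matrix.diagonal_apply]

theorem partG173_archPos (x : ∀ w : InfinitePlace K, w.Completion) (hx : ∀ w, x w ≠ 0)
    (a : InfinitePlace K) (r : ℝ) (hr : 0 < r)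
    (hxa : InfinitePlace.Completion.extensionEmbedding a (x a) = (r : ℂ)) :
    IsArchPosScalar a (partG173 x hx {a}) := by
  refine ⟨⟨fun w' hw' i j => ?_, fun v => ?_⟩, r, hr, ?_⟩
  · rw [partG173_entry]
    by_cases hij : i = j
    · rw [if_pos hij, partA173_fst_not_mem x (fun h => hw' (Finset.mem_singleton.1 h)), hij,
        Matrix.one_apply_eq]
    · rw [if_neg hij, Matrix.one_apply_ne hij]
      rfl
  · refine Matrix.ext fun i j => ?_
    show (((partG173 x hx {a} : G K) : Matrix (Fin 2) (Fin 2) (Adl K)) i j).2 v = _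
    rw [partG173_entry]
    by_cases hij : i = j
    · rw [if_pos hij, partA173_snd, hij, Matrix.one_apply_eq]
    · rw [if_neg hij, Matrix.one_apply_ne hij]
      rfl
  · refine Matrix.ext fun i j => ?_
    show InfinitePlace.Completion.extensionEmbedding a
      ((((partG173 x hx {a} : G K) : Matrix (Fin 2) (Fin 2) (Adl K)) i j).1 a) = _
    rw [partG173_entry]
    by_cases hij : i = j
    · rw [if_pos hij, partA173_fst_mem x (Finset.mem_singleton_self _), hxa, hij,
        Matrix.diagonal_apply_eq]
    · rw [if_neg hij, Matrix.diagonal_apply_ne _ hij]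
      exact map_zero _

/-- A diagonal positive scalar is `partG173 x univ` for the family `x` of its components. -/
theorem diagPos_eq_partG173 {z : G K} (hz : IsDiagPosScalar z) :
    ∃ (x : ∀ w : InfinitePlace K, w.Completion) (hx : ∀ w, x w ≠ 0) (r : ℝ), 0 < r ∧
      (∀ w, InfinitePlace.Completion.extensionEmbedding w (x w) = (r : ℂ)) ∧
      z = partG173 x hx Finset.univ := by
  obtain ⟨hfin, r, hr, hinf⟩ := hz
  have hinj : ∀ w : InfinitePlace K,
      Function.Injective (InfinitePlace.Completion.extensionEmbedding w) :=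
    fun w => (InfinitePlace.Completion.extensionEmbedding w).injective
  have hent : ∀ (w : InfinitePlace K) (i j : Fin 2),
      InfinitePlace.Completion.extensionEmbedding w
        (((z : Matrix (Fin 2) (Fin 2) (Adl K)) i j).1 w)
        = (Matrix.diagonal (fun _ : Fin 2 => (r : ℂ))) i j := fun w i j =>
    congrFun (congrFun (hinf w) i) j
  have hfent : ∀ (v : HeightOneSpectrum (𝓞 K)) (i j : Fin 2),
      ((z : Matrix (Fin 2) (Fin 2) (Adl K)) i j).2 v
        = (1 : Matrix (Fin 2) (Fin 2) (v.adicCompletion K)) i j := fun v i j =>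
    congrFun (congrFun (hfin v) i) j
  set x : ∀ w : InfinitePlace K, w.Completion :=
    fun w => ((z : Matrix (Fin 2) (Fin 2) (Adl K)) 0 0).1 w with hxdef
  have hxr : ∀ w, InfinitePlace.Completion.extensionEmbedding w (x w) = (r : ℂ) := by
    intro w
    have := hent w 0 0
    rwa [Matrix.diagonal_apply_eq] at this
  have hx : ∀ w, x w ≠ 0 := by
    intro w h0
    have h1 := hxr w
    rw [h0, map_zero] at h1
    exact (Complex.ofReal_ne_zero.2 hr.ne') h1.symm
  refine ⟨x, hx, r, hr, hxr, ?_⟩
  apply Units.ext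
  refine Matrix.ext fun i j => ?_
  rw [partG173_entry]
  by_cases hij : i = j
  · rw [if_pos hij]
    refine adele_ext173 (fun w => ?_) (fun v => ?_)
    · rw [partA173_fst_mem x (Finset.mem_univ w)]
      apply hinj w
      rw [hent w i j, hxr w, hij, Matrix.diagonal_apply_eq]
    · rw [partA173_snd, hfent v i j, hij, Matrix.one_apply_eq]
  · rw [if_neg hij]
    refine adele_ext173 (fun w => ?_) (fun v => ?_)
    · apply hinj w
      rw [hent w i j, Matrix.diagonal_apply_ne _ hij]
      exact (map_zero _).symm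
    · rw [hfent v i j, Matrix.one_apply_ne hij]
      rfl

/-- Cusp functions are invariant under the diagonal positive scalars. -/
theorem cusp_diagPos173 {𝔫 : Ideal (𝓞 K)} {φ : G K → ℂ} (hφ : IsCuspFn 𝔫 φ) (z : G K)
    (hz : IsDiagPosScalar z) (g : G K) : φ (g * z) = φ g := by
  classical
  obtain ⟨x, hx, r, hr, hxr, rfl⟩ := diagPos_eq_partG173 hz
  have key : ∀ S : Finset (InfinitePlace K), ∀ g : G K, φ (g * partG173 x hx S) = φ g := by
    intro S
    induction S using Finset.induction_on with
    | empty => intro g; rw [partG173_empty, mul_one]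
    | insert a S ha ih =>
      intro g
      rw [partG173_insert x hx ha, ← mul_assoc,
        hφ.arch_scalar a _ (partG173_archPos x hx a r hr (hxr a)), ih]
  exact key Finset.univ g

/-! ## 5. The sub-leaf -/

/-- **T2.07.09** from the KEY LEMMA T2.07.00. -/
theorem subConvBdd_of173 (hT : SubTransl429 K) : SubConvBdd429 K :=
  fun 𝔫 c F f hf => convBdd_core173 hT 𝔫 c F f hf fun _ hφ z hz g => cusp_diagPos173 hφ z hz g

end Fermat.Agent.LT.T2.H173

end
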